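/-
S52 / [HENSEL]: Hensel's lemma in `K⟦u⟧` (Mathlib only).

`f : Polynomial (PowerSeries K)`, `red := f.map PowerSeries.constantCoeff : Polynomial K`.

* `s52k_lift`   : a simple root of `red` lifts uniquely to a root of `f` (unit leading coefficient);
* `s52k_splits` : `K` algebraically closed, `red` separable ⟹ `f` splits over `K⟦u⟧`, roots distinct mod `u`;
* `s52k_sqrt`   : square roots of units;
* `s52k_map_root`: coefficientwise ring endomorphisms of `K` permute the roots.
-/
import Mathlib

set_option autoImplicit false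

namespace Fermat.Agent.S52

open Polynomial

variable {K : Type*} [Field K]

/-- constant coefficient commutes with evaluation -/
theorem s52k_cc_eval (p : Polynomial (PowerSeries K)) (a : PowerSeries K) :
    PowerSeries.constantCoeff (p.eval a) =
      (p.map PowerSeries.constantCoeff).eval (PowerSeries.constantCoeff a) := by
  rw [Polynomial.eval_map, Polynomial.eval₂_at_apply]

theorem s52k_mem_span_X (a : PowerSeries K) :
    a ∈ (Ideal.span {(PowerSeries.X : PowerSeries K)}) ↔ PowerSeries.constantCoeff a = 0 := by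
  rw [Ideal.mem_span_singleton, PowerSeries.X_dvd_iff]

theorem s52k_isUnit_of_cc_ne_zero {a : PowerSeries K} (h : PowerSeries.constantCoeff a ≠ 0) :
    IsUnit a :=
  PowerSeries.isUnit_iff_constantCoeff.mpr (isUnit_iff_ne_zero.mpr h)

/-- existence of the lift, monic case -/
theorem s52k_lift_monic (f : Polynomial (PowerSeries K)) (hf : f.Monic) (α : K)
    (h0 : (f.map PowerSeries.constantCoeff).eval α = 0)
    (h1 : (f.map PowerSeries.constantCoeff).derivative.eval α ≠ 0) :
    ∃ φ : PowerSeries K, PowerSeries.constantCoeff φ = α ∧ f.eval φ = 0 := by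
  have hH : HenselianRing (PowerSeries K) (Ideal.span {(PowerSeries.X : PowerSeries K)}) :=
    inferInstance
  have hα : PowerSeries.constantCoeff (PowerSeries.C α : PowerSeries K) = α := by simp
  have e0 : f.eval (PowerSeries.C α) ∈ Ideal.span {(PowerSeries.X : PowerSeries K)} := by
    rw [s52k_mem_span_X, s52k_cc_eval, hα, h0]
  have e1 : IsUnit (Ideal.Quotient.mk (Ideal.span {(PowerSeries.X : PowerSeries K)})
      (f.derivative.eval (PowerSeries.C α))) := by
    apply IsUnit.map
    apply s52k_isUnit_of_cc_ne_zero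
    rw [s52k_cc_eval, hα, ← Polynomial.derivative_map]
    exact h1
  obtain ⟨a, ha, haa⟩ := hH.is_henselian f hf (PowerSeries.C α) e0 e1
  refine ⟨a, ?_, ha⟩
  rw [s52k_mem_span_X, map_sub, hα, sub_eq_zero] at haa
  exact haa

/-- uniqueness of the lift -/
theorem s52k_lift_unique (f : Polynomial (PowerSeries K)) (α : K)
    (h1 : (f.map PowerSeries.constantCoeff).derivative.eval α ≠ 0)
    (φ ψ : PowerSeries K) (hφ : PowerSeries.constantCoeff φ = α)
    (hψ : PowerSeries.constantCoeff ψ = α) (hφ0 : f.eval φ = 0) (hψ0 : f.eval ψ = 0) :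
    φ = ψ := by
  obtain ⟨k, hk⟩ := Polynomial.binomExpansion f φ (ψ - φ)
  rw [add_sub_cancel, hφ0, hψ0, zero_add] at hk
  have h2 : (ψ - φ) * (f.derivative.eval φ + k * (ψ - φ)) = 0 := by
    rw [hk]; ring
  have hu : IsUnit (f.derivative.eval φ + k * (ψ - φ)) := by
    apply s52k_isUnit_of_cc_ne_zero
    rw [map_add, map_mul, map_sub, hφ, hψ, sub_self, mul_zero, add_zero, s52k_cc_eval, hφ,
      ← Polynomial.derivative_map]
    exact h1
  have h3 : ψ - φ = 0 := by
    rcases mul_eq_zero.mp h2 with h | h
    · exact h
    · exact absurd h hu.ne_zero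
  exact (sub_eq_zero.mp h3).symm

/-- **Hensel's lemma in `K⟦u⟧`**: a simple root of the reduction lifts uniquely. -/
theorem s52k_lift (f : Polynomial (PowerSeries K)) (hlead : IsUnit f.leadingCoeff) (α : K)
    (h0 : (f.map PowerSeries.constantCoeff).eval α = 0)
    (h1 : (f.map PowerSeries.constantCoeff).derivative.eval α ≠ 0) :
    ∃! φ : PowerSeries K, PowerSeries.constantCoeff φ = α ∧ f.eval φ = 0 := by
  have hmon : (hlead.unit⁻¹ • f).Monic := Polynomial.monic_of_isUnit_leadingCoeff_inv_smul hlead
  set c : PowerSeries K := ((hlead.unit⁻¹ : (PowerSeries K)ˣ) : PowerSeries K) with hc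
  have hcf : hlead.unit⁻¹ • f = Polynomial.C c * f := by
    rw [Units.smul_def, Polynomial.smul_eq_C_mul]
  have hcu : IsUnit c := (hlead.unit⁻¹).isUnit
  have hcc : PowerSeries.constantCoeff c ≠ 0 := by
    have := PowerSeries.isUnit_iff_constantCoeff.mp hcu
    exact this.ne_zero
  have hmap : (Polynomial.C c * f).map PowerSeries.constantCoeff =
      Polynomial.C (PowerSeries.constantCoeff c) * f.map PowerSeries.constantCoeff := by
    rw [Polynomial.map_mul, Polynomial.map_C]
  have e0 : ((hlead.unit⁻¹ • f).map PowerSeries.constantCoeff).eval α = 0 := by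
    rw [hcf, hmap, Polynomial.eval_mul, h0, mul_zero]
  have e1 : ((hlead.unit⁻¹ • f).map PowerSeries.constantCoeff).derivative.eval α ≠ 0 := by
    rw [hcf, hmap, Polynomial.derivative_C_mul, Polynomial.eval_mul, Polynomial.eval_C]
    exact mul_ne_zero hcc h1
  obtain ⟨φ, hφ, hφ0⟩ := s52k_lift_monic _ hmon α e0 e1
  have hφ0' : f.eval φ = 0 := by
    rw [hcf, Polynomial.eval_mul, Polynomial.eval_C] at hφ0
    rcases mul_eq_zero.mp hφ0 with h | h
    · exact absurd h hcu.ne_zero
    · exact h
  refine ⟨φ, ⟨hφ, hφ0'⟩, ?_⟩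
  rintro ψ ⟨hψ, hψ0⟩
  exact s52k_lift_unique f α h1 ψ φ hψ hφ hψ0 hφ0'

/-- a separable polynomial has only simple roots -/
theorem s52k_simple_of_separable {p : Polynomial K} (hp : p.Separable) {α : K}
    (hα : p.eval α = 0) : p.derivative.eval α ≠ 0 := by
  obtain ⟨a, b, hab⟩ := hp
  intro h
  have := congrArg (Polynomial.eval α) hab
  simp [Polynomial.eval_add, Polynomial.eval_mul, hα, h] at this

/-- **Splitting**: over an algebraically closed `K`, a polynomial over `K⟦u⟧` with unit leading
coefficient and separable reduction splits completely, with roots distinct modulo `u`. -/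
theorem s52k_splits [IsAlgClosed K] (f : Polynomial (PowerSeries K))
    (hlead : IsUnit f.leadingCoeff) (hsep : (f.map PowerSeries.constantCoeff).Separable) :
    ∃ R : Finset (PowerSeries K), R.card = f.natDegree ∧
      f = Polynomial.C f.leadingCoeff * ∏ φ ∈ R, (Polynomial.X - Polynomial.C φ) ∧
      Set.InjOn (PowerSeries.constantCoeff (R := K)) (R : Set (PowerSeries K)) := by
  classical
  set red : Polynomial K := f.map PowerSeries.constantCoeff with hred
  have hlc : PowerSeries.constantCoeff f.leadingCoeff ≠ 0 :=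
    (PowerSeries.isUnit_iff_constantCoeff.mp hlead).ne_zero
  have hdeg : red.natDegree = f.natDegree :=
    Polynomial.natDegree_map_of_leadingCoeff_ne_zero _ hlc
  have hf0 : f ≠ 0 := by
    intro h
    rw [h, Polynomial.leadingCoeff_zero] at hlead
    exact not_isUnit_zero hlead
  -- the roots of the reduction
  have hnodup : red.roots.Nodup := Polynomial.nodup_roots hsep
  have hcard : Multiset.card red.roots = red.natDegree :=
    (Polynomial.splits_iff_card_roots.mp (IsAlgClosed.splits red))
  -- choose the lifts
  have hex : ∀ α : K, α ∈ red.roots →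
      ∃ φ : PowerSeries K, PowerSeries.constantCoeff φ = α ∧ f.eval φ = 0 := by
    intro α hα
    have hα0 : red.eval α = 0 := (Polynomial.mem_roots'.mp hα).2
    exact (s52k_lift f hlead α hα0 (s52k_simple_of_separable hsep hα0)).exists
  let lift : K → PowerSeries K := fun α =>
    if h : α ∈ red.roots then (hex α h).choose else 0
  have hlift1 : ∀ α ∈ red.roots, PowerSeries.constantCoeff (lift α) = α := by
    intro α hα
    simp only [lift, dif_pos hα]
    exact (hex α hα).choose_spec.1
  have hlift2 : ∀ α ∈ red.roots, f.eval (lift α) = 0 := by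
    intro α hα
    simp only [lift, dif_pos hα]
    exact (hex α hα).choose_spec.2
  have hinj : Set.InjOn lift (red.roots.toFinset : Set K) := by
    intro α hα β hβ hab
    have hα' : α ∈ red.roots := by simpa using hα
    have hβ' : β ∈ red.roots := by simpa using hβ
    rw [← hlift1 α hα', ← hlift1 β hβ', hab]
  refine ⟨red.roots.toFinset.image lift, ?_, ?_, ?_⟩
  · rw [Finset.card_image_of_injOn hinj, Multiset.toFinset_card_of_nodup hnodup, hcard, hdeg]
  · -- the roots of `f`
    have hsub : (red.roots.toFinset.image lift).val ≤ f.roots := by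
      rw [Multiset.le_iff_subset (Finset.nodup _)]
      intro φ hφ
      rw [Finset.mem_val, Finset.mem_image] at hφ
      obtain ⟨α, hα, rfl⟩ := hφ
      rw [Polynomial.mem_roots hf0]
      exact hlift2 α (by simpa using hα)
    have hcardR : Multiset.card (red.roots.toFinset.image lift).val = f.natDegree := by
      rw [Finset.card_val, Finset.card_image_of_injOn hinj,
        Multiset.toFinset_card_of_nodup hnodup, hcard, hdeg]
    have heq : (red.roots.toFinset.image lift).val = f.roots :=
      Multiset.eq_of_le_of_card_le hsub (by rw [hcardR]; exact Polynomial.card_roots' f)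
    have hroots : Multiset.card f.roots = f.natDegree := by rw [← heq, hcardR]
    have := Polynomial.C_leadingCoeff_mul_prod_multiset_X_sub_C hroots
    rw [← heq] at this
    rw [Finset.prod_eq_multiset_prod]
    exact this.symm
  · intro φ hφ ψ hψ hcc
    rw [Finset.mem_coe, Finset.mem_image] at hφ hψ
    obtain ⟨α, hα, rfl⟩ := hφ
    obtain ⟨β, hβ, rfl⟩ := hψ
    have hα' : α ∈ red.roots := by simpa using hα
    have hβ' : β ∈ red.roots := by simpa using hβ
    rw [hlift1 α hα', hlift1 β hβ'] at hcc
    rw [hcc]

/-- every root of `f` (in the situation of `s52k_splits`) inside a domain containing `K⟦u⟧` is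
one of the power series roots -/
theorem s52k_root_mem [IsAlgClosed K] (f : Polynomial (PowerSeries K))
    (hlead : IsUnit f.leadingCoeff) (hsep : (f.map PowerSeries.constantCoeff).Separable)
    {B : Type*} [CommRing B] [IsDomain B] (ι : PowerSeries K →+* B) (hι : Function.Injective ι)
    (z : B) (hz : (f.map ι).eval z = 0) :
    ∃ φ : PowerSeries K, f.eval φ = 0 ∧ ι φ = z := by
  classical
  obtain ⟨R, -, hR, -⟩ := s52k_splits f hlead hsep
  rw [hR, Polynomial.map_mul, Polynomial.map_C, Polynomial.eval_mul, Polynomial.eval_C,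
    Polynomial.map_prod, Polynomial.eval_prod] at hz
  have hl : ι f.leadingCoeff ≠ 0 := by
    intro h
    have := hι (h.trans (map_zero ι).symm)
    rw [this] at hlead
    exact not_isUnit_zero hlead
  rcases mul_eq_zero.mp hz with h | h
  · exact absurd h hl
  · obtain ⟨φ, hφ, hφz⟩ := Finset.prod_eq_zero_iff.mp h
    refine ⟨φ, ?_, ?_⟩
    · rw [hR, Polynomial.eval_mul, Polynomial.eval_prod]
      have : ∏ j ∈ R, Polynomial.eval φ (Polynomial.X - Polynomial.C j) = 0 :=
        Finset.prod_eq_zero hφ (by simp)
      rw [this, mul_zero]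
    · simp only [Polynomial.map_sub, Polynomial.map_X, Polynomial.map_C, Polynomial.eval_sub,
        Polynomial.eval_X, Polynomial.eval_C] at hφz
      exact (sub_eq_zero.mp hφz).symm

/-- square roots of units of `K⟦u⟧` (`K` algebraically closed of characteristic `≠ 2`) -/
theorem s52k_sqrt [IsAlgClosed K] (h2 : (2 : K) ≠ 0) (δ : PowerSeries K)
    (hδ : PowerSeries.constantCoeff δ ≠ 0) : ∃ η : PowerSeries K, η ^ 2 = δ := by
  obtain ⟨α, hα⟩ := IsAlgClosed.exists_pow_nat_eq (PowerSeries.constantCoeff δ) (n := 2)
    (by norm_num)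
  have hα0 : α ≠ 0 := by
    intro h
    rw [h] at hα
    exact hδ (by rw [← hα]; simp)
  set f : Polynomial (PowerSeries K) := Polynomial.X ^ 2 - Polynomial.C δ with hf
  have hmon : f.Monic := Polynomial.monic_X_pow_sub_C δ (by norm_num)
  have hmap : f.map PowerSeries.constantCoeff =
      Polynomial.X ^ 2 - Polynomial.C (PowerSeries.constantCoeff δ) := by
    simp [hf]
  obtain ⟨η, -, hη⟩ := s52k_lift_monic f hmon α
    (by rw [hmap]; simp [hα])
    (by
      rw [hmap]
      simp only [Polynomial.derivative_sub, Polynomial.derivative_X_pow, Polynomial.derivative_C,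
        sub_zero, Polynomial.eval_mul, Polynomial.eval_C, Polynomial.eval_pow, Polynomial.eval_X]
      norm_num
      exact ⟨h2, hα0⟩)
  refine ⟨η, ?_⟩
  simp only [hf, Polynomial.eval_sub, Polynomial.eval_pow, Polynomial.eval_X,
    Polynomial.eval_C] at hη
  exact sub_eq_zero.mp hη

/-- coefficientwise ring endomorphisms of `K` fixing `f` permute the roots of `f` -/
theorem s52k_map_root (γ : K →+* K) (f : Polynomial (PowerSeries K))
    (hγ : f.map (PowerSeries.map γ) = f) (φ : PowerSeries K) (hφ : f.eval φ = 0) :
    f.eval (PowerSeries.map γ φ) = 0 := by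
  have := Polynomial.eval₂_at_apply (p := f) (PowerSeries.map γ) φ
  rw [← Polynomial.eval_map, hγ, hφ, map_zero] at this
  exact this

end Fermat.Agent.S52
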